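import Mathlib

set_option autoImplicit false

namespace Fermat.Agent.S49

theorem exists_common_eigenvector {V : Type*} [AddCommGroup V] [Module ℂ V] [FiniteDimensional ℂ V]
    (S : Set (Module.End ℂ V)) (hS : ∀ s ∈ S, ∀ t ∈ S, Commute s t) :
    ∀ (n : ℕ) (W : Submodule ℂ V), Module.finrank ℂ W = n → W ≠ ⊥ →
      (∀ s ∈ S, ∀ w ∈ W, s w ∈ W) →
      ∃ v ∈ W, v ≠ 0 ∧ ∀ s ∈ S, ∃ c : ℂ, s v = c • v := by
  intro n
  induction n using Nat.strong_induction_on with
  | _ n ih =>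
    intro W hn hW hstab
    by_cases hsc : ∀ s ∈ S, ∃ c : ℂ, ∀ w ∈ W, s w = c • w
    · obtain ⟨v, hvW, hv0⟩ := Submodule.exists_mem_ne_zero_of_ne_bot hW
      exact ⟨v, hvW, hv0, fun s hs => (hsc s hs).imp fun c hc => hc v hvW⟩
    · push Not at hsc
      obtain ⟨s, hs, hsne⟩ := hsc
      have hnt : Nontrivial W := Submodule.nontrivial_iff_ne_bot.mpr hW
      let sW : Module.End ℂ W := s.restrict (hstab s hs)
      obtain ⟨c, hc⟩ := Module.End.exists_eigenvalue sW
      obtain ⟨u, hu⟩ := hc.exists_hasEigenvector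
      let W' : Submodule ℂ V := W ⊓ LinearMap.ker (s - c • (1 : Module.End ℂ V))
      have hmem : ∀ w, w ∈ W' ↔ w ∈ W ∧ s w = c • w := by
        intro w
        simp only [W', Submodule.mem_inf, LinearMap.mem_ker, LinearMap.sub_apply,
          LinearMap.smul_apply, Module.End.one_apply, sub_eq_zero]
      have huW' : (u : V) ∈ W' := by
        rw [hmem]
        refine ⟨u.2, ?_⟩
        have := hu.apply_eq_smul
        exact congrArg Subtype.val this
      have hu0 : (u : V) ≠ 0 := fun h => hu.2 (Subtype.ext h)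
      have hW'ne : W' ≠ ⊥ := fun h => hu0 (by rw [h] at huW'; exact (Submodule.mem_bot ℂ).mp huW')
      have hlt : W' < W := by
        refine lt_of_le_of_ne inf_le_left ?_
        intro heq
        obtain ⟨w, hw, hne⟩ := hsne c
        rw [← heq] at hw
        exact hne ((hmem w).mp hw).2
      have hfr : Module.finrank ℂ W' < n := hn ▸ Submodule.finrank_lt_finrank_of_lt hlt
      obtain ⟨v, hv, hv0, hv'⟩ := ih _ hfr W' rfl hW'ne (by
        intro t ht w hw
        rw [hmem] at hw ⊢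
        refine ⟨hstab t ht w hw.1, ?_⟩
        have hcomm : s (t w) = t (s w) := by
          have := hS s hs t ht
          exact LinearMap.congr_fun this.eq w
        rw [hcomm, hw.2, map_smul])
      exact ⟨v, ((hmem v).mp hv).1, hv0, hv'⟩

/-- A minimal prime below a maximal ideal is the annihilator of a single element. -/
theorem exists_prime_le_eq_ann {T : Type*} [CommRing T] [IsNoetherianRing T]
    (𝔪 : Ideal T) [𝔪.IsPrime] :
    ∃ (𝔭 : Ideal T) (x : T), 𝔭.IsPrime ∧ 𝔭 ≤ 𝔪 ∧ ∀ t, t ∈ 𝔭 ↔ t * x = 0 := by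
  obtain ⟨𝔭, h𝔭, hle⟩ := Ideal.exists_minimalPrimes_le (bot_le : (⊥ : Ideal T) ≤ 𝔪)
  have hann : Module.annihilator T T = ⊥ := Module.annihilator_eq_bot.mpr inferInstance
  have hass : 𝔭 ∈ associatedPrimes T T := by
    apply Module.associatedPrimes.minimalPrimes_annihilator_subset_associatedPrimes T T
    rw [hann]; exact h𝔭
  obtain ⟨hp, x, hx⟩ := isAssociatedPrime_iff.mp hass
  refine ⟨𝔭, x, hp, hle, fun t => ?_⟩
  rw [hx, Submodule.mem_colon_singleton]
  simp

theorem deligneSerre_abstract {V : Type*} [AddCommGroup V] [Module ℂ V] [FiniteDimensional ℂ V]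
    {T : Type*} [CommRing T] [Module.Finite ℤ T] (ρ : T →+* Module.End ℂ V)
    (hρ : Function.Injective ρ) (I : Ideal T) (hI : I ≠ ⊤) :
    ∃ (v : V) (μ : T →+* integralClosure ℤ ℂ) (𝔪' : Ideal (integralClosure ℤ ℂ)),
      v ≠ 0 ∧ (∀ t, ρ t v = ((μ t : integralClosure ℤ ℂ) : ℂ) • v) ∧ 𝔪'.IsMaximal ∧
        ∀ t ∈ I, μ t ∈ 𝔪' := by
  have : IsNoetherianRing T := IsNoetherianRing.of_finite ℤ T
  have : Algebra.IsIntegral ℤ T := Algebra.IsIntegral.of_finite ℤ T
  obtain ⟨𝔪, h𝔪, hI𝔪⟩ := Ideal.exists_le_maximal I hI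
  have := h𝔪.isPrime
  obtain ⟨𝔭, x, h𝔭, h𝔭𝔪, hx⟩ := exists_prime_le_eq_ann 𝔪
  have hx0 : x ≠ 0 := by
    rintro rfl
    exact h𝔭.ne_top ((Ideal.eq_top_iff_one _).mpr ((hx 1).mpr (by simp)))
  have hρx : ρ x ≠ 0 := fun h => hx0 (hρ (by rw [h, map_zero]))
  obtain ⟨w, hw⟩ : ∃ w, ρ x w ≠ 0 := by
    by_contra hcon
    push Not at hcon
    exact hρx (LinearMap.ext hcon)
  let W : Submodule ℂ V := ⨅ t ∈ 𝔭, LinearMap.ker (ρ t)
  have hmemW : ∀ u, u ∈ W ↔ ∀ t ∈ 𝔭, ρ t u = 0 := by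
    intro u
    simp only [W, Submodule.mem_iInf, LinearMap.mem_ker]
  have hWne : W ≠ ⊥ := by
    intro h
    apply hw
    rw [← Submodule.mem_bot ℂ, ← h, hmemW]
    intro t ht
    have : ρ t (ρ x w) = ρ (t * x) w := by rw [map_mul]; rfl
    rw [this, (hx t).mp ht, map_zero]; rfl
  have hcomm : ∀ s t : T, ∀ u, ρ s (ρ t u) = ρ t (ρ s u) := by
    intro s t u
    have h1 : ρ s (ρ t u) = ρ (s * t) u := by rw [map_mul]; rfl
    have h2 : ρ t (ρ s u) = ρ (t * s) u := by rw [map_mul]; rfl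
    rw [h1, h2, mul_comm]
  obtain ⟨v, hvW, hv0, hv⟩ := exists_common_eigenvector (Set.range ρ)
    (by
      rintro _ ⟨s, rfl⟩ _ ⟨t, rfl⟩
      exact LinearMap.ext (hcomm s t)) _ W rfl hWne
    (by
      rintro _ ⟨s, rfl⟩ u hu
      rw [hmemW] at hu ⊢
      intro t ht
      rw [hcomm, hu t ht, map_zero])
  choose μ₀ hμ₀ using fun t => hv (ρ t) ⟨t, rfl⟩
  have hinj : ∀ c d : ℂ, c • v = d • v → c = d := fun c d h => smul_left_injective ℂ hv0 h
  let μ : T →+* ℂ :=
    { toFun := μ₀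
      map_one' := hinj _ _ (by rw [← hμ₀, map_one, one_smul]; rfl)
      map_mul' := fun s t => hinj _ _ (by
        rw [← hμ₀, map_mul, mul_smul, ← hμ₀ t, ← map_smul, ← hμ₀ s]
        exact hcomm s t v)
      map_zero' := hinj _ _ (by rw [← hμ₀, map_zero, zero_smul]; rfl)
      map_add' := fun s t => hinj _ _ (by
        rw [← hμ₀, map_add, add_smul, ← hμ₀, ← hμ₀]; rfl) }
  have hμ : ∀ t, ρ t v = μ t • v := hμ₀
  have hint : ∀ t, μ t ∈ integralClosure ℤ ℂ := fun t =>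
    map_isIntegral_int μ (Algebra.IsIntegral.isIntegral t)
  let μ' : T →+* integralClosure ℤ ℂ := μ.codRestrict (integralClosure ℤ ℂ) hint
  have hμ' : ∀ t, ((μ' t : integralClosure ℤ ℂ) : ℂ) = μ t := fun t => rfl
  have hker : RingHom.ker μ' ≤ 𝔪 := by
    have hle : 𝔭 ≤ RingHom.ker μ' := by
      intro t ht
      rw [RingHom.mem_ker]
      apply Subtype.ext
      rw [hμ']
      apply hinj
      rw [← hμ, ZeroMemClass.coe_zero, zero_smul]
      exact (hmemW v).mp hvW t ht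
    have heq : 𝔭 = RingHom.ker μ' := by
      by_contra hne
      have hlt := Ideal.IsIntegral.comap_lt_comap (R := ℤ) (lt_of_le_of_ne hle hne)
      have hbot : (RingHom.ker μ').comap (algebraMap ℤ T) = ⊥ := by
        rw [eq_bot_iff]
        intro n hn
        rw [Ideal.mem_comap, RingHom.mem_ker] at hn
        have : ((μ' (algebraMap ℤ T n) : integralClosure ℤ ℂ) : ℂ) = (n : ℂ) := by
          rw [hμ']; simp
        rw [hn] at this
        simpa using this.symm
      rw [hbot] at hlt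
      exact not_lt_bot hlt
    rw [← heq]; exact h𝔭𝔪
  let : Algebra T (integralClosure ℤ ℂ) := μ'.toAlgebra
  have : Algebra.IsIntegral T (integralClosure ℤ ℂ) :=
    ⟨fun z => (Algebra.IsIntegral.isIntegral (R := ℤ) z).tower_top⟩
  obtain ⟨𝔪', h𝔪', hcomap⟩ := Ideal.exists_ideal_over_maximal_of_isIntegral
    (S := integralClosure ℤ ℂ) 𝔪 hker
  refine ⟨v, μ', 𝔪', hv0, fun t => by rw [hμ', hμ], h𝔪', fun t ht => ?_⟩
  have : t ∈ 𝔪'.comap (algebraMap T (integralClosure ℤ ℂ)) := hcomap ▸ hI𝔪 ht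
  exact this

end Fermat.Agent.S49
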