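import Mathlib
import Fermat.Prelude.Def_CuspForm_HeckeAlgebra
import Fermat.Prelude.Def_CuspForm_IntegralLattice
import Fermat.Prelude.Def_CuspForm_IntegralStructure
import Fermat.Prelude.Thm_CuspForm_intLattice_fg
import Fermat.Prelude.Thm_CuspForm_mem_intLattice_of_mem_heckeAlgebra
import Fermat.Prelude.Thm_ModularFormClass_qCoeff_heckeT
import Fermat.Prelude.Thm_ModularFormClass_qCoeff_heckeU
import Fermat.Prelude.Thm_CongruenceSubgroup_one_mem_strictPeriods_Gamma0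

set_option autoImplicit false

open CuspForm CongruenceSubgroup ModularFormClass UpperHalfPlane

namespace Fermat.Agent.S49

variable {N : ℕ}

theorem hΓ (N : ℕ) :
    (1 : ℝ) ∈ (Subgroup.map (Matrix.SpecialLinearGroup.mapGL ℝ) (Gamma0 N)).strictPeriods :=
  CongruenceSubgroup.one_mem_strictPeriods_Gamma0 N

theorem qc_add (f g : CuspForm (Gamma0 N) 2) (n : ℕ) :
    qCoeff ⇑(f + g) n = qCoeff ⇑f n + qCoeff ⇑g n := by
  simp only [qCoeff, FunLike.coe_add]
  rw [ModularForm.qExpansion_add one_pos (hΓ N) f g, map_add]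

theorem qc_smul (c : ℂ) (f : CuspForm (Gamma0 N) 2) (n : ℕ) :
    qCoeff ⇑(c • f) n = c * qCoeff ⇑f n := by
  have h1 : ⇑(c • f) = c • ⇑f := by
    ext z
    simp
  simp only [qCoeff, h1]
  rw [ModularForm.qExpansion_smul one_pos (hΓ N) c f]
  simp

theorem qc_sub (f g : CuspForm (Gamma0 N) 2) (n : ℕ) :
    qCoeff ⇑(f - g) n = qCoeff ⇑f n - qCoeff ⇑g n := by
  simp only [qCoeff, FunLike.coe_sub]
  rw [ModularForm.qExpansion_sub one_pos (hΓ N) f g, map_sub]

theorem qc_zero (f : CuspForm (Gamma0 N) 2) : qCoeff ⇑f 0 = 0 :=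
  CuspFormClass.qExpansion_coeff_zero f one_pos (hΓ N)

theorem qc_ext (f : CuspForm (Gamma0 N) 2) (h : ∀ n, qCoeff ⇑f n = 0) : f = 0 := by
  have : Fact (IsCusp OnePoint.infty
      (Subgroup.map (Matrix.SpecialLinearGroup.mapGL ℝ) (Gamma0 N))) :=
    ⟨Subgroup.isCusp_of_mem_strictPeriods one_pos (hΓ N)⟩
  have h0 : qExpansion 1 ⇑f = 0 := by
    ext n
    simpa [qCoeff] using h n
  have h1 : (⇑f : ℍ → ℂ) = 0 :=
    (qExpansion_eq_zero_iff one_pos (SlashInvariantFormClass.periodic_comp_ofComplex f (hΓ N)) (holo f)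
      (bdd_at_infty f)).mp h0
  exact DFunLike.coe_injective (h1.trans FunLike.coe_zero.symm)

theorem qc_T {ℓ : ℕ} (hℓ : ℓ.Prime) (hℓN : ¬ ℓ ∣ N) (f : CuspForm (Gamma0 N) 2) (n : ℕ) :
    qCoeff ⇑(heckeTLin 2 hℓ hℓN f) n =
      qCoeff ⇑f (ℓ * n) + (ℓ : ℂ) * (if ℓ ∣ n then qCoeff ⇑f (n / ℓ) else 0) := by
  rw [coe_heckeTLin_apply, ModularFormClass.qCoeff_heckeT f (hΓ N) hℓ.ne_zero n,
    ModularForm.coeffHeckeT_apply, mul_comm n ℓ]
  split_ifs <;> simp

theorem qc_U [NeZero N] {ℓ : ℕ} (hℓ : ℓ.Prime) (hℓN : ℓ ∣ N) (f : CuspForm (Gamma0 N) 2) (n : ℕ) :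
    qCoeff ⇑(heckeULin 2 hℓN f) n = qCoeff ⇑f (ℓ * n) := by
  rw [coe_heckeULin_apply, ModularFormClass.qCoeff_heckeU f (hΓ N) hℓ.ne_zero n,
    ModularForm.coeffHeckeU_apply, mul_comm n ℓ]

theorem mem_intLattice_iff (f : CuspForm (Gamma0 N) 2) :
    f ∈ CuspForm.intLattice N 2 ↔ ∀ n : ℕ, ∃ m : ℤ, qCoeff f n = (m : ℂ) :=
  P2MW.S_CuspForm_intLattice_fg.W3WsD.mem_intLattice_iff f

theorem qIntegralSet_subset : qIntegralSet N ⊆ (CuspForm.intLattice N 2 : Set _) := by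
  intro f hf
  rw [SetLike.mem_coe, mem_intLattice_iff]
  intro n
  obtain ⟨m, hm⟩ := Subring.mem_bot.mp (hf n)
  exact ⟨m, hm.symm⟩

theorem finiteDimensional_of_hasIntegralBasis [NeZero N] (h : CuspForm.HasIntegralBasis N) :
    FiniteDimensional ℂ (CuspForm (Gamma0 N) 2) := by
  obtain ⟨S, hS⟩ := CuspForm.intLattice_fg N 2
  refine ⟨⟨S, ?_⟩⟩
  rw [eq_top_iff, ← h, Submodule.span_le]
  intro f hf
  have h1 : f ∈ CuspForm.intLattice N 2 := qIntegralSet_subset hf
  rw [← hS] at h1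
  exact Submodule.span_le_restrictScalars ℤ ℂ _ h1

/-- The action of the Hecke algebra on the integral lattice. -/
noncomputable def latticeAction (N : ℕ) [NeZero N] :
    heckeAlgebra N 2 ∅ →+* Module.End ℤ (CuspForm.intLattice N 2) where
  toFun t := (t.1.restrictScalars ℤ).restrict
    (fun _ hg => CuspForm.mem_intLattice_of_mem_heckeAlgebra one_le_two t.2 hg)
  map_one' := by ext; rfl
  map_mul' s t := by ext; rfl
  map_zero' := by ext; rfl
  map_add' s t := by ext; rfl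

theorem latticeAction_injective [NeZero N] (h : CuspForm.HasIntegralBasis N) :
    Function.Injective (latticeAction N) := by
  intro s t hst
  apply Subtype.ext
  apply LinearMap.ext_on h
  intro f hf
  have h1 := LinearMap.congr_fun hst ⟨f, qIntegralSet_subset hf⟩
  exact congrArg Subtype.val h1

theorem heckeAlgebra_isIntegral [NeZero N] (h : CuspForm.HasIntegralBasis N) :
    Algebra.IsIntegral ℤ (heckeAlgebra N 2 ∅) := by
  have : Module.Finite ℤ (CuspForm.intLattice N 2) :=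
    Module.Finite.iff_fg.mpr (CuspForm.intLattice_fg N 2)
  refine ⟨fun t => ?_⟩
  rw [← isIntegral_algHom_iff (latticeAction N).toIntAlgHom (latticeAction_injective h)]
  exact Algebra.IsIntegral.isIntegral _

end Fermat.Agent.S49
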