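import Mathlib

set_option autoImplicit false

namespace Fermat.Agent.S49

open scoped IsMulCommutative in
theorem exists_eigenvector_of_prime {T V : Type*} [CommRing T] [AddCommGroup V] [Module ℂ V]
    [FiniteDimensional ℂ V]
    (ρ : T →+* Module.End ℂ V) (hρ : Function.Injective ρ) (P : Ideal T) [P.IsPrime] :
    ∃ (v : V) (χ : T →+* ℂ), v ≠ 0 ∧ (∀ t, ρ t v = χ t • v) ∧ RingHom.ker χ ≤ P := by
  classical
  let A : Subalgebra ℂ (Module.End ℂ V) := Algebra.adjoin ℂ (Set.range ρ)
  have hcomm : IsMulCommutative A := Algebra.isMulCommutative_adjoin ℂ (by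
    rintro _ ⟨s, rfl⟩ _ ⟨t, rfl⟩
    show ρ s * ρ t = ρ t * ρ s
    rw [← map_mul, ← map_mul, mul_comm])
  let _ : CommRing A := inferInstance
  have : Module.Finite ℂ A := inferInstance
  have : IsNoetherianRing A := IsNoetherianRing.of_finite ℂ A
  have : Module.Finite A V := Module.Finite.of_restrictScalars_finite ℂ A V
  let ι : T →+* A := ρ.codRestrict A (fun t => Algebra.subset_adjoin ⟨t, rfl⟩)
  have hι : Function.Injective ι := fun s t h => hρ (congrArg Subtype.val h)
  obtain ⟨p, hp, hpP⟩ := Ideal.exists_minimalPrimes_le (bot_le : (⊥ : Ideal T) ≤ P)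
  obtain ⟨q, hq, hqp⟩ := Ideal.exists_minimalPrimes_comap_eq (I := (⊥ : Ideal A)) ι p (by
    rwa [Ideal.comap_bot_of_injective ι hι])
  have hann : Module.annihilator A V = ⊥ := by
    rw [eq_bot_iff]
    intro a ha
    rw [Module.mem_annihilator] at ha
    rw [Ideal.mem_bot]
    apply Subtype.ext
    ext v
    exact ha v
  have hass : q ∈ associatedPrimes A V :=
    Module.associatedPrimes.minimalPrimes_annihilator_subset_associatedPrimes A V (hann ▸ hq)
  obtain ⟨hqprime, v, hv⟩ := (isAssociatedPrime_iff (I := q) (M := V)).mp hass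
  have hmem : ∀ a : A, a ∈ q ↔ a • v = 0 := by
    intro a
    rw [hv, Submodule.mem_colon_singleton, Submodule.mem_bot]
  have hbij : Function.Bijective (algebraMap ℂ (A ⧸ q)) :=
    IsAlgClosed.algebraMap_bijective_of_isIntegral
  let e : ℂ ≃ₐ[ℂ] (A ⧸ q) := AlgEquiv.ofBijective (Algebra.ofId ℂ (A ⧸ q)) hbij
  let χA : A →+* ℂ := (e.symm : (A ⧸ q) →+* ℂ).comp (Ideal.Quotient.mk q)
  have hχA : ∀ a : A, a - algebraMap ℂ A (χA a) ∈ q := by
    intro a
    rw [← Ideal.Quotient.eq]
    have : e (χA a) = Ideal.Quotient.mk q a := e.apply_symm_apply _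
    rw [← this]
    rfl
  have hkerA : ∀ a : A, χA a = 0 → a ∈ q := by
    intro a ha
    have := hχA a
    rwa [ha, map_zero, sub_zero] at this
  refine ⟨v, χA.comp ι, ?_, ?_, ?_⟩
  · rintro rfl
    apply hqprime.ne_top
    rw [Ideal.eq_top_iff_one, hmem, smul_zero]
  · intro t
    have h1 := (hmem _).mp (hχA (ι t))
    rw [sub_smul, sub_eq_zero] at h1
    have h2 : (ι t) • v = ρ t v := rfl
    rw [← h2, h1, algebraMap_smul]
    rfl
  · intro t ht
    apply hpP
    rw [← hqp]
    exact hkerA _ ht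

end Fermat.Agent.S49
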