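import Mathlib
import Fermat.Agent.S49.Lattice
import Fermat.Prelude.Def_FormalHecke_Eigensystem
import Fermat.Prelude.Def_ModularForm_EisensteinChiNegThree

set_option autoImplicit false

open CuspForm CongruenceSubgroup ModularFormClass UpperHalfPlane EisensteinWeightOne

namespace Fermat.Agent.S49

variable {N : ℕ}

theorem three_dvd_sub_chi (ℓ : ℕ) : (3 : ℤ) ∣ (ℓ : ℤ) - chiNegThree ℓ := by
  unfold chiNegThree
  split_ifs <;> omega

theorem bridge_coeff (a : ℕ → ℤ) (n : ℕ) :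
    (3 : ℤ) ∣ (bridgeProduct a).coeff n - a n := by
  let E' : PowerSeries ℤ := PowerSeries.mk fun n => if n = 0 then 0 else 2 * sigmaChi n
  have hE : e1Chi3In ℤ = 1 + (3 : ℤ) • E' := by
    ext m
    rw [map_add, map_smul]
    simp only [e1Chi3In, e1Chi3, E', PowerSeries.coeff_map, PowerSeries.coeff_mk,
      PowerSeries.coeff_one, eq_intCast, Int.cast_id, smul_eq_mul]
    split_ifs <;> ring
  have h1 : bridgeProduct a = PowerSeries.mk a + (3 : ℤ) • (PowerSeries.mk a * E') := by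
    rw [bridgeProduct, hE, mul_add, mul_one, mul_smul_comm]
  rw [h1, map_add, PowerSeries.coeff_mk, map_smul, smul_eq_mul]
  exact ⟨(PowerSeries.coeff n) (PowerSeries.mk a * E'), by ring⟩

/-- A form all of whose coefficients are divisible by `3` is `3` times a lattice element. -/
theorem exists_eq_three_smul (F : CuspForm (Gamma0 N) 2)
    (hF : ∀ n, ∃ m : ℤ, qCoeff ⇑F n = 3 * (m : ℂ)) :
    ∃ g ∈ CuspForm.intLattice N 2, F = (3 : ℂ) • g := by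
  refine ⟨(3 : ℂ)⁻¹ • F, ?_, ?_⟩
  · rw [mem_intLattice_iff]
    intro n
    obtain ⟨m, hm⟩ := hF n
    refine ⟨m, ?_⟩
    rw [qc_smul, hm]
    field_simp
  · rw [smul_smul, mul_inv_cancel₀ (by norm_num), one_smul]

/-- The ideal of Hecke operators sending `f` into `3 L`. -/
def congIdeal [NeZero N] (f : CuspForm (Gamma0 N) 2) : Ideal (heckeAlgebra N 2 ∅) where
  carrier := {t | ∃ g ∈ CuspForm.intLattice N 2, t.1 f = (3 : ℂ) • g}
  zero_mem' := ⟨0, Submodule.zero_mem _, by simp⟩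
  add_mem' := by
    rintro s t ⟨g, hg, hs⟩ ⟨g', hg', ht⟩
    refine ⟨g + g', Submodule.add_mem _ hg hg', ?_⟩
    rw [smul_add, ← hs, ← ht]
    rfl
  smul_mem' := by
    rintro s t ⟨g, hg, ht⟩
    refine ⟨s.1 g, CuspForm.mem_intLattice_of_mem_heckeAlgebra one_le_two s.2 hg, ?_⟩
    rw [← map_smul, ← ht]
    rfl

theorem mem_congIdeal [NeZero N] (f : CuspForm (Gamma0 N) 2) (t : heckeAlgebra N 2 ∅) :
    t ∈ congIdeal f ↔ ∃ g ∈ CuspForm.intLattice N 2, t.1 f = (3 : ℂ) • g := Iff.rfl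

theorem congIdeal_ne_top [NeZero N] (f : CuspForm (Gamma0 N) 2) {af : ℕ → ℤ}
    (haf : ∀ n, (af n : ℂ) = qCoeff ⇑f n) (h1 : ¬ (3 : ℤ) ∣ af 1) : congIdeal f ≠ ⊤ := by
  intro htop
  rw [Ideal.eq_top_iff_one, mem_congIdeal] at htop
  obtain ⟨g, hg, hfg⟩ := htop
  obtain ⟨m, hm⟩ := (mem_intLattice_iff g).mp hg 1
  apply h1
  refine ⟨m, ?_⟩
  have h2 : f = (3 : ℂ) • g := hfg
  have h3 : (af 1 : ℂ) = 3 * (m : ℂ) := by
    rw [haf, h2, qc_smul, hm]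
  exact_mod_cast h3

theorem three_mem_congIdeal [NeZero N] (f : CuspForm (Gamma0 N) 2)
    (hf : f ∈ CuspForm.intLattice N 2) : ((3 : ℕ) : heckeAlgebra N 2 ∅) ∈ congIdeal f := by
  rw [mem_congIdeal]
  refine ⟨f, hf, ?_⟩
  have : (((3 : ℕ) : heckeAlgebra N 2 ∅) : Module.End ℂ (CuspForm (Gamma0 N) 2)) = ((3 : ℕ) : Module.End ℂ (CuspForm (Gamma0 N) 2)) := rfl
  rw [this, Module.End.natCast_apply]
  rw [← Nat.cast_smul_eq_nsmul ℂ]
  norm_num

theorem T_sub_mem_congIdeal [NeZero N] (f : CuspForm (Gamma0 N) 2) {af a : ℕ → ℤ}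
    (haf : ∀ n, (af n : ℂ) = qCoeff ⇑f n) (hcong : ∀ n, (3 : ℤ) ∣ af n - a n)
    (heig : FormalHecke.IsEigensystem
      (fun ℓ => if ℓ ∣ N then 0 else ((chiNegThree ℓ : ℤ) : ℤ)) a)
    {ℓ : ℕ} (hℓ : ℓ.Prime) (hℓN : ¬ ℓ ∣ N) :
    heckeAlgebra.T hℓ hℓN (Set.notMem_empty ℓ) - ((a ℓ : ℤ) : heckeAlgebra N 2 ∅) ∈ congIdeal f := by
  rw [mem_congIdeal]
  have h0 : ((heckeAlgebra.T hℓ hℓN (Set.notMem_empty ℓ) - ((a ℓ : ℤ) : heckeAlgebra N 2 ∅) :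
      heckeAlgebra N 2 ∅) : Module.End ℂ (CuspForm (Gamma0 N) 2)) f
      = heckeTLin 2 hℓ hℓN f - ((a ℓ : ℤ) : ℂ) • f := by
    have : ((heckeAlgebra.T hℓ hℓN (Set.notMem_empty ℓ) - ((a ℓ : ℤ) : heckeAlgebra N 2 ∅) :
      heckeAlgebra N 2 ∅) : Module.End ℂ (CuspForm (Gamma0 N) 2))
      = heckeTLin 2 hℓ hℓN - ((a ℓ : ℤ) : Module.End ℂ (CuspForm (Gamma0 N) 2)) := rfl
    rw [this, LinearMap.sub_apply, Module.End.intCast_apply, ← Int.cast_smul_eq_zsmul ℂ]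
  rw [h0]
  apply exists_eq_three_smul
  intro n
  rw [qc_sub, qc_smul, qc_T]
  choose k hk using hcong
  obtain ⟨j, hj⟩ := three_dvd_sub_chi ℓ
  have he := heig.2 ℓ hℓ n
  simp only [if_neg hℓN] at he
  by_cases hd : ℓ ∣ n
  · rw [if_pos hd] at he ⊢
    refine ⟨k (ℓ * n) + j * af (n / ℓ) + chiNegThree ℓ * k (n / ℓ) - a ℓ * k n, ?_⟩
    rw [← haf, ← haf, ← haf]
    have h1 := hk (ℓ * n)
    have h2 := hk (n / ℓ)
    have h3 := hk n
    have : af (ℓ * n) + (ℓ : ℤ) * af (n / ℓ) - a ℓ * af n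
        = 3 * (k (ℓ * n) + j * af (n / ℓ) + chiNegThree ℓ * k (n / ℓ) - a ℓ * k n) := by
      linear_combination h1 + af (n / ℓ) * hj + chiNegThree ℓ * h2 - a ℓ * h3 + he
    exact_mod_cast this
  · rw [if_neg hd] at he ⊢
    refine ⟨k (ℓ * n) - a ℓ * k n, ?_⟩
    rw [← haf, ← haf]
    have h1 := hk (ℓ * n)
    have h3 := hk n
    have : af (ℓ * n) + (ℓ : ℤ) * 0 - a ℓ * af n = 3 * (k (ℓ * n) - a ℓ * k n) := by
      linear_combination h1 - a ℓ * h3 + he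
    exact_mod_cast this

end Fermat.Agent.S49
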