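import Mathlib
import Fermat.Prelude.Def_FormalHecke_Eigensystem

set_option autoImplicit false

namespace Fermat.Agent.S49

variable {R : Type*} [CommRing R]

theorem eig_prime_pow {e a : ℕ → R} (h : FormalHecke.IsEigensystem e a) {ℓ : ℕ} (hℓ : ℓ.Prime)
    (r : ℕ) : a (ℓ ^ (r + 2)) = a ℓ * a (ℓ ^ (r + 1)) - e ℓ * a (ℓ ^ r) := by
  have h1 := h.2 ℓ hℓ (ℓ ^ (r + 1))
  have h2 : ℓ ∣ ℓ ^ (r + 1) := dvd_pow_self ℓ (Nat.succ_ne_zero r)
  have h3 : ℓ ^ (r + 1) / ℓ = ℓ ^ r := by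
    rw [pow_succ, Nat.mul_div_cancel _ hℓ.pos]
  have h4 : ℓ * ℓ ^ (r + 1) = ℓ ^ (r + 2) := by ring
  rw [if_pos h2, h3, h4] at h1
  rw [← h1]; ring

theorem eig_prime_pow_mul {e a : ℕ → R} (h : FormalHecke.IsEigensystem e a) {ℓ : ℕ}
    (hℓ : ℓ.Prime) {n : ℕ} (hn : ¬ ℓ ∣ n) :
    ∀ r : ℕ, a (ℓ ^ r * n) = a (ℓ ^ r) * a n ∧ a (ℓ ^ (r + 1) * n) = a (ℓ ^ (r + 1)) * a n := by
  intro r
  induction r with
  | zero =>
    refine ⟨by simp [h.1], ?_⟩
    have h1 := h.2 ℓ hℓ n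
    rw [if_neg hn, mul_zero, add_zero] at h1
    simpa using h1
  | succ r ih =>
    refine ⟨ih.2, ?_⟩
    have h1 := h.2 ℓ hℓ (ℓ ^ (r + 1) * n)
    have h2 : ℓ ∣ ℓ ^ (r + 1) * n := Dvd.dvd.mul_right (dvd_pow_self ℓ (Nat.succ_ne_zero r)) n
    have h3 : ℓ ^ (r + 1) * n / ℓ = ℓ ^ r * n := by
      rw [pow_succ, mul_assoc, mul_comm ℓ n, ← mul_assoc, Nat.mul_div_cancel _ hℓ.pos]
    have h4 : ℓ * (ℓ ^ (r + 1) * n) = ℓ ^ (r + 1 + 1) * n := by ring
    rw [if_pos h2, h3, h4, ih.1, ih.2] at h1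
    rw [eig_prime_pow h hℓ r]
    linear_combination h1

theorem eig_mul_of_coprime {e a : ℕ → R} (h : FormalHecke.IsEigensystem e a) :
    ∀ m n : ℕ, m.Coprime n → a (m * n) = a m * a n := by
  intro m
  induction m using Nat.recOnPrimeCoprime with
  | zero =>
    intro n hn
    rw [Nat.coprime_zero_left] at hn
    subst hn
    simp [h.1]
  | prime_pow p k hp =>
    intro n hn
    rcases Nat.eq_zero_or_pos k with rfl | hk
    · simp [h.1]
    · have hpn : ¬ p ∣ n := by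
        intro hd
        have h1 : p ∣ Nat.gcd (p ^ k) n := Nat.dvd_gcd (dvd_pow_self p hk.ne') hd
        rw [hn] at h1
        exact hp.one_lt.ne' (Nat.dvd_one.mp h1)
      exact (eig_prime_pow_mul h hp hpn k).1
  | coprime x y _ _ hxy ihx ihy =>
    intro n hn
    have hxn : x.Coprime n := Nat.Coprime.coprime_mul_right hn
    have hyn : y.Coprime n := Nat.Coprime.coprime_mul_left hn
    rw [mul_assoc, ihx (y * n) (Nat.Coprime.mul_right hxy hxn), ihy n hyn, ihx y hxy, mul_assoc]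

theorem eig_isRecursive {e a : ℕ → R} (h : FormalHecke.IsEigensystem e a) :
    FormalHecke.IsRecursive e a :=
  ⟨h.1, eig_mul_of_coprime h, fun _ r hℓ => eig_prime_pow h hℓ r⟩

/-- If all Hecke relations hold with some eigenvalues and `b 1 = 0`, then `b n = 0` for `n ≥ 1`. -/
theorem eig_vanish {e b : ℕ → R}
    (h : ∀ ℓ : ℕ, ℓ.Prime → ∃ c : R, ∀ n : ℕ,
      b (ℓ * n) + e ℓ * (if ℓ ∣ n then b (n / ℓ) else 0) = c * b n)
    (h1 : b 1 = 0) : ∀ n : ℕ, 1 ≤ n → b n = 0 := by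
  intro n
  induction n using Nat.strong_induction_on with
  | _ n ih =>
    intro hn
    rcases Nat.eq_or_lt_of_le hn with rfl | hn1
    · exact h1
    · have hne : n ≠ 1 := hn1.ne'
      have hp : (Nat.minFac n).Prime := Nat.minFac_prime hne
      obtain ⟨m, hm⟩ := Nat.minFac_dvd n
      obtain ⟨c, hc⟩ := h _ hp
      have hmpos : 1 ≤ m := by
        rcases Nat.eq_zero_or_pos m with rfl | hm0
        · omega
        · exact hm0
      have hmlt : m < n := by
        calc m = 1 * m := (one_mul m).symm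
          _ < n.minFac * m := Nat.mul_lt_mul_of_pos_right hp.one_lt hmpos
          _ = n := hm.symm
      have h2 := hc m
      rw [← hm, ih m hmlt hmpos, mul_zero] at h2
      by_cases hd : n.minFac ∣ m
      · rw [if_pos hd] at h2
        have h3 : 1 ≤ m / n.minFac := Nat.div_pos (Nat.le_of_dvd hmpos hd) hp.pos
        have h4 : m / n.minFac < n := lt_of_le_of_lt (Nat.div_le_self _ _) hmlt
        rw [ih _ h4 h3, mul_zero, add_zero] at h2
        exact h2
      · rw [if_neg hd, mul_zero, add_zero] at h2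
        exact h2

end Fermat.Agent.S49
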